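import Fermat.Agent.Pic.Rep.OpenChart
import Fermat.Agent.Pic.Rep.Diff

/-!
# An open chart inside the universal family

The locus of a chart in the universal family is the chart; hence smoothness of the charts passes
to the universal family.
-/

set_option autoImplicit false

noncomputable section

universe u

open CategoryTheory CategoryTheory.Limits AlgebraicGeometry NeronModelInfra
  AlgebraicGeometry.RelPicard

namespace FermatAgent.Pic

variable {k : Type u} [Field k] {C : Scheme.{u}} {c : C ⟶ Spec (CommRingCat.of k)}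
  {ε : SchemeHomOver (𝟙 (Spec (CommRingCat.of k))) c} {Q : SubPicCondition c ε}
  {D T : Scheme.{u}}

namespace FamilyOn

theorem rel_map_of_sameClass (a : FamilyOn Q D) (b : FamilyOn Q T) (h : SchemeHomOver b.t a.t)
    (e : SameClass (a.M.pullbackAlong h) b.M) : b ≈ a.map h.1 := by
  have ht : 𝟙 T ≫ (a.map h.1).t = b.t := (Category.id_comp (h.1 ≫ a.t)).trans h.2
  show Rel b (a.map h.1)
  refine ⟨ht, SameClass.trans ?_ e⟩
  exact (sameClass_pullbackAlong_comp a.M ⟨h.1, rfl⟩ ⟨𝟙 T, ht⟩).trans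
    (sameClass_pullbackAlong_congr a.M (ψ := h) (Category.id_comp h.1))

theorem eq_of_map_rel {a : FamilyOn Q D} (hu : IsUniversal a) {g g' : T ⟶ D}
    (h : a.map g ≈ a.map g') : g = g' := by
  obtain ⟨e, hc⟩ := h
  have ht : g ≫ a.t = g' ≫ a.t := ((Category.id_comp _).symm.trans e).symm
  obtain ⟨h₀, -, huniq⟩ := hu (g ≫ a.t) (a.M.pullbackAlong ⟨g, rfl⟩) (a.map g).mem
  have e1 := huniq ⟨g, rfl⟩ (SameClass.refl _)
  have e2 := huniq ⟨g', ht.symm⟩ (SameClass.trans ?_ hc)
  · exact congrArg Subtype.val (e1.trans e2.symm)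
  · let φ : SchemeHomOver (a.map g').t a.t := ⟨g', rfl⟩
    let ψ : SchemeHomOver (a.map g).t (a.map g').t := ⟨𝟙 T, e⟩
    exact (sameClass_pullbackAlong_congr a.M (ψ := postComp φ ψ) (Category.id_comp g').symm).trans
      (sameClass_pullbackAlong_comp a.M φ ψ).symm

end FamilyOn

/-- The locus of a chart in a universal family is the chart. -/
theorem OpenChart.exists_iso_locus (U : OpenChart Q) {a : FamilyOn Q D} (hu : IsUniversal a) :
    ∃ p : (U.locus a).toScheme ⟶ U.W, IsIso p ∧ p ≫ U.fam.t = (U.locus a).ι ≫ a.t := by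
  obtain ⟨p, hp, -⟩ := U.classify (a.map (U.locus a).ι)
    (by rw [U.locus_map]; exact Scheme.Opens.ι_preimage_self _)
  obtain ⟨h, hh, -⟩ := hu U.fam.t U.fam.M U.fam.mem
  have hrel : U.fam ≈ a.map h.1 := FamilyOn.rel_map_of_sameClass a U.fam h hh
  have hr : Set.range h.1 ⊆ Set.range (U.locus a).ι := by
    rw [Scheme.Opens.range_ι]
    rintro _ ⟨x, rfl⟩
    have hx : x ∈ h.1 ⁻¹ᵁ U.locus a := by
      rw [← U.locus_map, ← U.locus_congr hrel, U.locus_fam]; trivial
    exact hx
  let q := IsOpenImmersion.lift (U.locus a).ι h.1 hr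
  have hq : q ≫ (U.locus a).ι = h.1 := IsOpenImmersion.lift_fac _ _ _
  refine ⟨p, ⟨q, ?_, ?_⟩, ?_⟩
  · rw [← cancel_mono (U.locus a).ι, Category.assoc, hq, Category.id_comp]
    refine FamilyOn.eq_of_map_rel hu ?_
    exact Setoid.trans (FamilyOn.map_comp' _ _ _)
      (Setoid.trans (FamilyOn.map_rel _ (Setoid.symm hrel)) hp)
  · obtain ⟨v, -, huniq⟩ := U.classify U.fam U.locus_fam
    refine (huniq _ ?_).trans (huniq _ (FamilyOn.map_id' _)).symm
    refine Setoid.trans (FamilyOn.map_comp' _ _ _) (Setoid.trans (FamilyOn.map_rel _ hp) ?_)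
    refine Setoid.trans (Setoid.symm (FamilyOn.map_comp' _ _ _)) ?_
    rw [hq]
    exact Setoid.symm hrel
  · exact (hp.choose.symm.trans (Category.id_comp _))

/-- A universal family covered by smooth charts is smooth. -/
theorem smooth_of_charts {ι : Type u} (U : ι → OpenChart Q) (hU : ∀ i, Smooth (U i).fam.t)
    {a : FamilyOn Q D} (hu : IsUniversal a) (hcov : ∀ x : D, ∃ i, x ∈ (U i).locus a) :
    Smooth a.t := by
  have hc : TopologicalSpace.IsOpenCover fun i => (U i).locus a :=
    top_unique fun x _ => TopologicalSpace.Opens.mem_iSup.mpr (hcov x)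
  rw [IsZariskiLocalAtSource.iff_of_openCover (P := @Smooth.{u})
    (Scheme.openCoverOfIsOpenCover D _ hc)]
  intro i
  obtain ⟨p, _, hp⟩ := (U i).exists_iso_locus hu
  have := hU i
  show Smooth (((U i).locus a).ι ≫ a.t)
  rw [← hp]
  infer_instance

end FermatAgent.Pic

end
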