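import Fermat.Agent.Pic.Main.Charts
import Fermat.Agent.Pic.Rep.Chart
import Fermat.Agent.Pic.Field.Cover
import Fermat.Agent.Pic.Glue.Small
import Fermat.Agent.Pic.Props.Connected
import Fermat.Agent.Pic.Props.Points

/-!
# The universal family of degree zero

The charts are indexed by the classes of bundles of degree the genus over the base field and by
the constant elements; they cover every family.
-/

set_option autoImplicit false

noncomputable section

universe u

open CategoryTheory CategoryTheory.Limits AlgebraicGeometry NeronModelInfra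
  AlgebraicGeometry.RelPicard

namespace FermatAgent.Pic

variable {k : Type u} [Field k] [IsAlgClosed k] {C : Scheme.{u}}
  {c : C ⟶ Spec (CommRingCat.of k)} {ε : SchemeHomOver (𝟙 (Spec (CommRingCat.of k))) c}
  {P : Pres c ε}

omit [IsAlgClosed k] in
/-- A bundle is the dual of its dual. -/
theorem Bdl.dual_dual_equiv {X : Curve2 k} {A : Type u} [CommRing A] [Algebra k A]
    (E : Bdl X A) : E.dual.dual ≈ E :=
  Bdl.cls_eq_iff.mp (by rw [Bdl.cls_dual, Bdl.cls_dual, inv_inv])

namespace Bridge

omit [IsAlgClosed k] in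
/-- **Bundles over the base field form a small type up to isomorphism.** -/
theorem exists_bdl_code (B : Bridge P) : ∃ (ι : Type u) (code : Bdl P.X k → ι),
    ∀ E E', code E = code E' → E ≈ E' := by
  have : Small.{u} (FamilyClass (SubPicCondition.top c ε) (Spec (CommRingCat.of k))) :=
    Glue.small_familyClass _ _
  choose M hM using fun E : Bdl P.X k => B.exists_bdl E (Bdl.IsRigid.of_field E _)
  refine ⟨Shrink.{u} (FamilyClass (SubPicCondition.top c ε) (Spec (CommRingCat.of k))),
    fun E => equivShrink _ (Quotient.mk _ ⟨tA (k := k) k, M E, trivial⟩), fun E E' h => ?_⟩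
  obtain ⟨_, e⟩ := Quotient.exact ((equivShrink _).injective h)
  have e' : SameClass (M E') (M E) := (sameClass_pullbackAlong_id _ _).symm.trans e
  exact Setoid.trans (Setoid.symm (hM E)) (Setoid.trans (B.bdl_congr e'.symm) (hM E'))

/-- **There is a smooth universal family of degree zero**, given the dictionary. -/
theorem exists_universal_smooth (B : Bridge P) :
    ∃ (D : Scheme.{u}) (a : FamilyOn B.degCut D), IsUniversal a ∧ Smooth a.t := by
  have : ∀ T : Scheme.{u}, Small.{u} (FamilyClass B.degCut T) := fun T =>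
    Glue.small_familyClass _ T
  obtain ⟨J, code, hcode⟩ := B.exists_bdl_code
  let I : Type u :=
    {j : J // ∃ E : Bdl P.X k, E.HasDeg (Bdl.genus P.X) ∧ code E = j} ×
      (Fin (Bdl.genus P.X) → P.X.R0)
  let data : I → ChartData P.X (Bdl.genus P.X) := fun i =>
    ⟨i.1.2.choose, i.1.2.choose_spec.1, i.2⟩
  choose U hU hlocus using fun i => exists_openChart (B := B) (data i)
  have hcov : ∀ {T : Scheme.{u}} (a : FamilyOn B.degCut T) (x : T),
      ∃ i, x ∈ (U i).locus a := by
    intro T a x
    obtain ⟨K, _, _, _, y, rfl⟩ := exists_geom_point a.t x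
    set X := ptBdl a y
    have hd0 : X.deg = 0 :=
      (Bdl.deg_congr (Bdl.map_id X)).symm.trans (ptBdl_deg y K (AlgHom.id k K))
    obtain ⟨E0, hE0, hacy⟩ := Bdl.exists_cover P.e P.e_y X hd0
    let j : {j : J // ∃ E : Bdl P.X k, E.HasDeg (Bdl.genus P.X) ∧ code E = j} :=
      ⟨code E0, E0, hE0, rfl⟩
    have hiso : E0 ≈ j.2.choose := hcode _ _ j.2.choose_spec.2.symm
    obtain ⟨Bs, hgood⟩ := ChartData.exists_isGood P.e_y j.2.choose
      j.2.choose_spec.1 (ptBdl_rigid y) (ptBdl_deg y) fun z => by
        obtain ⟨i⟩ := Setoid.trans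
          (Bdl.tensor_congr (Setoid.refl X) (Bdl.map_congr (Algebra.ofId k K) hiso))
          (Setoid.symm (Bdl.dual_dual_equiv _))
        exact (hacy z).of_iso i
    refine ⟨(j, Bs), ?_⟩
    rw [hlocus (j, Bs) a]
    exact (isGood_iff_mem a y).mp hgood
  obtain ⟨D, a, hu⟩ :=
    exists_universal_of_charts
      (isSheaf_famPresheaf (Glue.classGluing_of_pres P) B.isLocalCondition_degCut) U hcov
  exact ⟨D, a, hu, smooth_of_charts U hU hu (hcov a)⟩

end Bridge

end FermatAgent.Pic

end
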