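import Fermat.Agent.Pic.Bridge.Main
import Fermat.Agent.Pic.Main.Universal
import Fermat.Agent.Pic.Mk.Exists
import Fermat.Agent.Pic.Props.Cut

/-!
# The Picard scheme of a curve over an algebraically closed field

The universal family of degree zero of a presented curve represents fibrewise algebraic equivalence
to zero, and is smooth, proper and geometrically connected.  Every smooth proper integral curve
with a rational point has a presentation.
-/

set_option autoImplicit false

noncomputable section

universe u

open CategoryTheory CategoryTheory.Limits AlgebraicGeometry NeronModelInfra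
  AlgebraicGeometry.RelPicard GoodReductionJacobian

namespace FermatAgent.Pic

variable {k : Type u} [Field k] [IsAlgClosed k] {C : Scheme.{u}}
  {c : C ⟶ Spec (CommRingCat.of k)} {ε : SchemeHomOver (𝟙 (Spec (CommRingCat.of k))) c}
  {P : Pres c ε}

/-- **The Picard scheme of a presented curve**: fibrewise algebraic equivalence to zero is
represented by a smooth, proper, geometrically connected scheme, given the dictionary. -/
theorem Bridge.exists_representsRelSubPic [IsProper c] [IsIntegral C] (B : Bridge P) :
    ∃ D : RelativePic0Designation k c,
      Nonempty (RepresentsRelSubPic c ε (algEquivZeroCut c ε) D) ∧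
        Smooth D.toBase ∧ IsProper D.toBase ∧ GeometricallyConnected D.toBase := by
  obtain ⟨D, a, hu, hs⟩ := B.exists_universal_smooth
  obtain ⟨PB⟩ := exists_pointBdls P.X P.e
  have hcut : ∀ {T : Scheme.{u}} (t : T ⟶ Spec (CommRingCat.of k))
      (M : RigidifiedLineBundle c ε t),
      B.degCut.P t M ↔ (algEquivZeroCut c ε).P t M := fun t M =>
    degCut_iff_fibrewiseAlgEquivZero hu PB t M
  obtain ⟨z, hz, -⟩ := hu (𝟙 _) (RigidifiedLineBundle.unit (c := c) (ε := ε) _)
    (B.degCut.unit_mem _)
  refine ⟨⟨D, a.t, z.1, z.2⟩, ⟨?_⟩, hs, isProper_of_universal hu PB,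
    geometricallyConnected_of_universal hu PB⟩
  exact
    { poincare := a.M
      poincare_mem := (hcut _ _).mp a.mem
      univ := fun t M hM => hu t M ((hcut t M).mpr hM)
      zero := hz }

/-- **The Picard scheme exists**: for a pointed smooth proper integral curve over an algebraically
closed field, fibrewise algebraic equivalence to zero is represented by a smooth, proper,
geometrically connected scheme. -/
theorem exists_representsRelSubPic (c : C ⟶ Spec (CommRingCat.of k)) [IsProper c]
    [SmoothOfRelativeDimension 1 c] [IsIntegral C]
    (ε : SchemeHomOver (𝟙 (Spec (CommRingCat.of k))) c) :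
    ∃ D : RelativePic0Designation k c,
      Nonempty (RepresentsRelSubPic c ε (algEquivZeroCut c ε) D) ∧
        Smooth D.toBase ∧ IsProper D.toBase ∧ GeometricallyConnected D.toBase := by
  obtain ⟨P⟩ := Mk.exists_pres c ε
  obtain ⟨B⟩ := Dict.exists_bridge P
  exact B.exists_representsRelSubPic

end FermatAgent.Pic

end
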